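import Fermat.Agent.LT.T7.H893.SupplySphSpec
import Fermat.Agent.LT.T6.H305.Sys
import Fermat.Agent.LT.T6.H176.InstLocal

/-!
# Row LT, tower T7, leaf T7.L2.1.H2b.3a `SphInvC893` (registry 2885) -- helper315, OFF-MAIN

`sphInvC315 F : H893.SphInvC893 F` for every number field `F`, UNCONDITIONAL, VERBATIM vs
`LT/T7/H893/SupplySphSpec.lean` (helper893@dc5b9ccb3, sha256 03a16fa2).

A spherical function `φ = A ∘ cartan` (`A` finitely supported on dominant weights) on `GL₂(F_v)` is
bi-invariant under `GL₂(𝒪_v) = U(0)` and supported on finitely many cosets `x GL₂(𝒪_v)`.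

Proof: `cartan` is bi-`GL₂(𝒪)`-invariant (`entryMax` and the valuation of the determinant are);
for a dominant `λ` the set `{cartan = λ}` has a finite coset system (the explicit system of
helper305, `LT/T6/H305/Sys.lean`, for the residue data of a local field); the completion is a
local field (`instLocalC176`, helper176).  Imports are byte-identical copies.
-/

set_option autoImplicit false

open IsDedekindDomain NumberField

noncomputable section

namespace Fermat.Agent.LT.T7.H315

open Fermat.Agent.LT.T6 Fermat.Agent.LT.T6.H305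

variable {k : Type} [Field k] [Valued k Γ₀]

theorem entryMax_mul_left_le315 (κ g : GL (Fin 2) k) (hκ : InK κ) :
    entryMax (κ * g) ≤ entryMax g := by
  rw [entryMax_le_iff]
  intro i j
  rw [Units.val_mul, Matrix.mul_apply]
  refine Valuation.map_sum_le _ (fun l _ => ?_)
  rw [map_mul]
  calc Valued.v ((κ : Matrix (Fin 2) (Fin 2) k) i l)
        * Valued.v ((g : Matrix (Fin 2) (Fin 2) k) l j)
      ≤ 1 * entryMax g := mul_le_mul' (hκ.1 i l) (le_entryMax g l j)
    _ = entryMax g := one_mul _

theorem entryMax_mul_left315 (κ g : GL (Fin 2) k) (hκ : InK κ) :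
    entryMax (κ * g) = entryMax g := by
  refine le_antisymm (entryMax_mul_left_le315 κ g hκ) ?_
  have := entryMax_mul_left_le315 κ⁻¹ (κ * g) (inK_inv hκ)
  simpa using this

theorem val_det_mul_left315 (κ g : GL (Fin 2) k) (hκ : InK κ) :
    Valued.v ((κ * g : GL (Fin 2) k) : Matrix (Fin 2) (Fin 2) k).det
      = Valued.v (g : Matrix (Fin 2) (Fin 2) k).det := by
  rw [Units.val_mul, Matrix.det_mul, map_mul, ((inK_iff κ).1 hκ).2, one_mul]

/-- The Cartan invariant is right `GL₂(𝒪)`-invariant. -/
theorem cartan_mul_right315 (g κ : GL (Fin 2) k) (hκ : InK κ) : cartan (g * κ) = cartan g := by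
  unfold cartan
  rw [entryMax_mul g κ hκ, val_det_mul g κ hκ]

/-- The Cartan invariant is left `GL₂(𝒪)`-invariant. -/
theorem cartan_mul_left315 (κ g : GL (Fin 2) k) (hκ : InK κ) : cartan (κ * g) = cartan g := by
  unfold cartan
  rw [entryMax_mul_left315 κ g hκ, val_det_mul_left315 κ g hκ]

/-- Over a local field every dominant weight has a finite coset system. -/
theorem exists_cosetSys315 {q : ℕ} (hk : IsLocalField k q) (lam : ℤ × ℤ) (hlam : lam.2 ≤ lam.1) :
    ∃ H : Finset (GL (Fin 2) k), IsCosetSys lam H := by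
  obtain ⟨D, -⟩ := exists_resData hk
  obtain ⟨n, hn⟩ : ∃ n : ℕ, (n : ℤ) = lam.1 - lam.2 :=
    ⟨(lam.1 - lam.2).toNat, Int.toNat_of_nonneg (by omega)⟩
  have e : lam = ((n : ℤ) + lam.2, lam.2) := Prod.ext (by simp only; omega) rfl
  exact ⟨_, D.isCosetSys_image lam.2 n lam e⟩

/-- **The local statement**: over a local field a spherical function is bi-`GL₂(𝒪)`-invariant
and supported on finitely many cosets. -/
theorem sphInv_local315 {q : ℕ} (hk : IsLocalField k q) (φ : GL (Fin 2) k → ℂ)
    (A : (ℤ × ℤ) →₀ ℂ) (h : Fermat.Agent.LT.T7.H893.IsSphFn893 φ A) :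
    IsBiInv (InU 0) φ ∧ HasFinSupp (InU 0) φ := by
  classical
  obtain ⟨hdom, hφ⟩ := h
  constructor
  · intro u u' g hu hu'
    rw [hφ, hφ, cartan_mul_right315 _ _ ((inU_zero_iff _).1 hu'),
      cartan_mul_left315 _ _ ((inU_zero_iff _).1 hu)]
  · have hex : ∀ lam : ℤ × ℤ, ∃ H : Finset (GL (Fin 2) k),
        lam ∈ A.support → IsCosetSys lam H := by
      intro lam
      by_cases hl : lam ∈ A.support
      · obtain ⟨H, hH⟩ := exists_cosetSys315 hk lam (hdom lam hl)
        exact ⟨H, fun _ => hH⟩
      · exact ⟨∅, fun h => absurd h hl⟩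
    choose H hH using hex
    refine ⟨A.support.biUnion H, fun g hg => ?_⟩
    have hmem : cartan g ∈ A.support := by
      rw [Finsupp.mem_support_iff]
      rwa [hφ] at hg
    obtain ⟨h, hh, hK⟩ := (hH _ hmem).2.2 g rfl
    refine ⟨h, Finset.mem_biUnion.2 ⟨_, hmem, hh⟩, h⁻¹ * g, hK, ?_⟩
    group

/-- **LEAF T7.L2.1.H2b.3a = SPH-INV**, for every number field. -/
theorem sphInvC315 (F : Type) [Field F] [NumberField F] :
    Fermat.Agent.LT.T7.H893.SphInvC893 F := by
  intro v φ A h
  exact sphInv_local315 (Fermat.Agent.LT.T6.H176.instLocalC176 F v) φ A h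

end Fermat.Agent.LT.T7.H315

end
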